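/-
S56 (Taylor-Wiles primes), block GW, (N) nondegeneracy of the local cup product, part 1 (ABSTRACT):
the extension `0 → c → E_y → ρ → 0` attached to a cocycle `y ∈ Z¹(G, σ)` and a pairing `β : ρ × σ → c`;
its connecting map `H¹(G,ρ) → H²(G,c)` is `x ↦ - x ∪ y`.
`E_y = k × A`,   `g (t, a) = (c g t + β (ρ g a) (y 1 g), ρ g a)`.
-/
import Fermat.Agent.S56.GW.Cup
import Fermat.Agent.PT.Coh.LES

set_option autoImplicit false
set_option maxHeartbeats 400000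
set_option linter.unusedSectionVars false

noncomputable section

namespace Fermat.Agent.S56.GW

open Fermat.Agent.PT

variable {k G A B : Type*} [CommRing k] [Group G] [AddCommGroup A] [Module k A]
  [AddCommGroup B] [Module k B]
variable {L : LevelSystem G} {ρ : Representation k G A} {σ : Representation k G B}
  {c : Representation k G k} {β : A →ₗ[k] B →ₗ[k] k}

/-- the cocycle relation, in additive form. -/
theorem Ext_Z1_add {V : Subgroup G} {y : G → G → B} (hy : y ∈ Z1 L V σ) (g₀ g₁ g₂ : G) :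
    y g₀ g₂ = y g₁ g₂ + y g₀ g₁ := by
  have h := congrFun (congrFun (congrFun hy.2 g₀) g₁) g₂
  simp only [d1_apply, Pi.zero_apply] at h
  have h' : y g₁ g₂ + y g₀ g₁ - y g₀ g₂ = 0 := by rw [← h]; abel
  exact (sub_eq_zero.mp h').symm

/-- `y 1 1 = 0` (from `d1 y 1 1 1 = 0`). -/
theorem Z1_one_one {y : G → G → B} (hy : y ∈ Z1 L ⊤ σ) : y 1 1 = 0 := by
  have h := Ext_Z1_add hy 1 1 1
  exact left_eq_add.mp h

/-- `y 1 (g h) = y 1 g + σ g (y 1 h)` (from `d1 y 1 g (g h) = 0` and equivariance `y (g * 1) (g * h) = σ g (y 1 h)`). -/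
theorem Z1_one_mul {y : G → G → B} (hy : y ∈ Z1 L ⊤ σ) (g h : G) :
    y 1 (g * h) = y 1 g + σ g (y 1 h) := by
  have h1 := Ext_Z1_add hy 1 g (g * h)
  have h2 := hy.1.1 g trivial 1 h
  rw [mul_one] at h2
  rw [h1, h2, add_comm]

/-- The extension `E_y`. -/
def extRep (hβ : IsPairingOn ⊤ ρ σ c β) {y : G → G → B} (hy : y ∈ Z1 L ⊤ σ) :
    Representation k G (k × A) where
  toFun g := (c g ∘ₗ LinearMap.fst k k A + β.flip (y 1 g) ∘ₗ ρ g ∘ₗ LinearMap.snd k k A).prod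
    (ρ g ∘ₗ LinearMap.snd k k A)
  map_one' := by
    apply LinearMap.ext
    rintro ⟨t, a⟩
    show (c 1 t + β (ρ 1 a) (y 1 1), ρ 1 a) = (t, a)
    rw [Z1_one_one hy, map_one, map_one, map_zero, add_zero]
    rfl
  map_mul' g h := by
    apply LinearMap.ext
    rintro ⟨t, a⟩
    show (c (g * h) t + β (ρ (g * h) a) (y 1 (g * h)), ρ (g * h) a) =
      (c g (c h t + β (ρ h a) (y 1 h)) + β (ρ g (ρ h a)) (y 1 g), ρ g (ρ h a))
    rw [Z1_one_mul hy, map_mul, map_mul, Module.End.mul_apply, Module.End.mul_apply]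
    simp only [map_add]
    rw [hβ g trivial]
    congr 1
    abel

theorem extRep_apply (hβ : IsPairingOn ⊤ ρ σ c β) {y : G → G → B} (hy : y ∈ Z1 L ⊤ σ) (g : G)
    (t : k) (a : A) : extRep hβ hy g (t, a) = (c g t + β (ρ g a) (y 1 g), ρ g a) := rfl

/-- `E_y` is smooth: for `(t, a)` take a level `U` fixing `t` and `a` and such that `y 1 (1 * u) = y 1 1 = 0` for `u ∈ U`
(smoothness of `y`; common level by `L.directed'`). -/
theorem isSmoothRep_extRep (hc : IsSmoothRep L c) (hρ : IsSmoothRep L ρ)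
    (hβ : IsPairingOn ⊤ ρ σ c β) {y : G → G → B} (hy : y ∈ Z1 L ⊤ σ) :
    IsSmoothRep L (extRep hβ hy) := by
  rintro ⟨t, a⟩
  obtain ⟨U₁, hU₁, h₁⟩ := hc t
  obtain ⟨U₂, hU₂, h₂⟩ := hρ a
  obtain ⟨U₃, hU₃, h₃⟩ := hy.1.2
  obtain ⟨W, hW, hW1, hW2⟩ := L.directed' U₁ hU₁ U₂ hU₂
  obtain ⟨W', hW', hW'1, hW'2⟩ := L.directed' W hW U₃ hU₃
  refine ⟨W', hW', fun u hu => ?_⟩
  have hyu : y 1 u = 0 := by
    have h := h₃ 1 1 1 (one_mem _) u (hW'2 hu)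
    rw [one_mul, one_mul] at h
    rw [h, Z1_one_one hy]
  rw [extRep_apply, h₁ u (hW1 (hW'1 hu)), h₂ u (hW2 (hW'1 hu)), hyu, map_zero, add_zero]

/-- The short exact sequence `0 → c → E_y → ρ → 0`. -/
theorem extSES (hc : IsSmoothRep L c) (hρ : IsSmoothRep L ρ)
    (hβ : IsPairingOn ⊤ ρ σ c β) {y : G → G → B} (hy : y ∈ Z1 L ⊤ σ) :
    SES L c (extRep hβ hy) ρ (LinearMap.inl k k A) (LinearMap.snd k k A) := by
  refine ⟨fun g t => ?_, fun g b => rfl, LinearMap.inl_injective, LinearMap.snd_surjective, ?_,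
    isSmoothRep_extRep hc hρ hβ hy⟩
  · show (c g t, (0 : A)) = extRep hβ hy g (t, 0)
    rw [extRep_apply, map_zero, map_zero, LinearMap.zero_apply, add_zero]
  · rintro ⟨t, a⟩
    constructor
    · intro h
      have h' : a = 0 := h
      exact ⟨t, by rw [h']; rfl⟩
    · rintro ⟨t', ht'⟩
      exact (congrArg Prod.snd ht').symm

/-- The connecting map is `x ↦ - x ∪ y`.  Use `SES.δ1_mk` with the lift
`X g₀ g₁ = (β (x g₀ g₁) (y 1 g₁), x g₀ g₁)` of `x`.  It is equivariant for `extRep` because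
`y 1 (g g₁) = y 1 g + σ g (y 1 g₁)`, smooth because `x` and `y` are, and
`d1 X g₀ g₁ g₂ = (- β (x g₀ g₁) (y g₁ g₂), 0)` because `x g₁ g₂ - x g₀ g₂ = - x g₀ g₁` and
`y 1 g₂ - y 1 g₁ = y g₁ g₂`. -/
theorem ext_δ1 (hc : IsSmoothRep L c) (hρ : IsSmoothRep L ρ)
    (hβ : IsPairingOn ⊤ ρ σ c β) {y : G → G → B} (hy : y ∈ Z1 L ⊤ σ) (x : H1 L ⊤ ρ) :
    (extSES hc hρ hβ hy).δ1 ⊤ x = - cupH L hβ x (H1.mk L ⊤ σ ⟨y, hy⟩) := by
  obtain ⟨x, rfl⟩ := H1.mk_surjective L ⊤ ρ x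
  rw [cupH_mk, ← map_neg]
  obtain ⟨x, hx⟩ := x
  have hx3 := Ext_Z1_add hx
  have hy3 := Ext_Z1_add hy
  refine (extSES hc hρ hβ hy).δ1_mk ⊤ ⟨x, hx⟩ _
    (fun g₀ g₁ => (β (x g₀ g₁) (y 1 g₁), x g₀ g₁)) ⟨fun v _ g₀ g₁ => ?_, ?_⟩ ?_ ?_
  · show (β (x (v * g₀) (v * g₁)) (y 1 (v * g₁)), x (v * g₀) (v * g₁)) =
      extRep hβ hy v (β (x g₀ g₁) (y 1 g₁), x g₀ g₁)
    rw [extRep_apply, hx.1.1 v trivial, Z1_one_mul hy, map_add, hβ v trivial, add_comm]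
  · obtain ⟨U, hU, hsx⟩ := hx.1.2
    obtain ⟨U', hU', hsy⟩ := hy.1.2
    obtain ⟨W, hW, h1, h2⟩ := L.directed' U hU U' hU'
    refine ⟨W, hW, fun g₀ g₁ u₀ h₀ u₁ h₁ => ?_⟩
    show (β (x (g₀ * u₀) (g₁ * u₁)) (y 1 (g₁ * u₁)), x (g₀ * u₀) (g₁ * u₁)) =
      (β (x g₀ g₁) (y 1 g₁), x g₀ g₁)
    have hy1 := hsy 1 g₁ 1 (one_mem _) u₁ (h2 h₁)
    rw [one_mul] at hy1
    rw [hsx g₀ g₁ u₀ (h1 h₀) u₁ (h1 h₁), hy1]
  · rfl
  · funext g₀ g₁ g₂
    show ((- β (x g₀ g₁) (y g₁ g₂) : k), (0 : A)) =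
      (β (x g₁ g₂) (y 1 g₂), x g₁ g₂) - (β (x g₀ g₂) (y 1 g₂), x g₀ g₂) +
        (β (x g₀ g₁) (y 1 g₁), x g₀ g₁)
    rw [hx3 g₀ g₁ g₂, hy3 1 g₁ g₂]
    simp only [map_add, LinearMap.add_apply, Prod.mk_sub_mk, Prod.mk_add_mk]
    congr 1 <;> abel

end Fermat.Agent.S56.GW

end
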