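/-
S56 (Taylor-Wiles primes), block GW, (N) nondegeneracy of the local cup product, part 2 (ABSTRACT):
`H² - H⁰` duality (surjectivity of `alpha`) implies that `H¹(G,ρ) × H¹(G,σ) → H²(G,c)` is nondegenerate on the right.
-/
import Fermat.Agent.S56.GW.Nondeg.Ext
import Fermat.Agent.PT.Duality.LES
import Fermat.Agent.PT.Coh.DictV

set_option autoImplicit false
set_option maxHeartbeats 400000
set_option linter.unusedSectionVars false

noncomputable section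

namespace Fermat.Agent.S56.GW

open Fermat.Agent.PT

variable {k : Type*} [Field k] {G A B : Type*} [Group G] [AddCommGroup A] [Module k A]
  [AddCommGroup B] [Module k B]
variable {L : LevelSystem G} {ρ : Representation k G A} {σ : Representation k G B}
  {c : Representation k G k} {β : A →ₗ[k] B →ₗ[k] k}

/-- **Abstract nondegeneracy.**
Let `y` be a cocycle with `x ∪ y = 0` for all `x`.  `S := extSES hc hρ hβ hy`.
1. `(S.iC ⊤).H2 : H²(c) → H²(E_y)` is injective: `S.exact_δ1_iH2 ⊤`, `ext_δ1`, hypothesis.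
2. there is `Λ : H²(E_y) → k` with `Λ ∘ i_* = tr` (`LinearMap.exists_leftInverse_of_injective`).
3. `Λ = alpha .. ψ = tr ∘ ψ_*` with `ψ ∈ EHomOn ⊤ (extRep ..) c` (`hdual`).
4. `ψ ∘ inl = s • id` with `s = ψ (1, 0)`, so `tr z = Λ (i_* z) = tr ((ψ ∘ i)_* z) = s * tr z` (on representatives
   `(ψ ∘ i)_* [z] = [s • z]`; `mapH2_comp`), hence `s = 1` as `tr ≠ 0`.
5. `μ a := ψ (0, a)`; equivariance of `ψ` at `(0, a)`: `β (ρ g a) (y 1 g) + μ (ρ g a) = c g (μ a)`.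
   Write `μ = - β.flip b₀` (`hβr` surjective).  Then `β (ρ g a) (y 1 g) = β (ρ g a) (b₀ - σ g b₀)` for all `a, g`
   (`c g (β a b₀) = β (ρ g a) (σ g b₀)`), so `y 1 g = σ g (-b₀) - (-b₀)` (`ρ g` onto, `hβr` injective).
6. `y ∈ B1 L ⊤ σ` by `PT.mem_B1_iff` (`PT/Coh/DictV.lean`). -/
theorem cup_right_nondeg_abs (hc : IsSmoothRep L c) (hρ : IsSmoothRep L ρ)
    (tr : H2 L ⊤ c →ₗ[k] k) (htr : tr ≠ 0)
    (hdual : ∀ τ : Representation k G (k × A), IsSmoothRep L τ →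
      Function.Surjective (alpha L ⊤ c tr τ))
    (hβ : IsPairingOn ⊤ ρ σ c β) (hβr : Function.Bijective β.flip)
    (y : H1 L ⊤ σ) (h : ∀ x : H1 L ⊤ ρ, cupH L hβ x y = 0) : y = 0 := by
  obtain ⟨⟨y, hy⟩, rfl⟩ := H1.mk_surjective L ⊤ σ y
  have S := extSES hc hρ hβ hy
  -- 1. injectivity of `i_*`
  have hinj : Function.Injective (S.iC ⊤).H2 := by
    rw [injective_iff_map_eq_zero]
    intro z hz
    obtain ⟨x, rfl⟩ := (S.exact_δ1_iH2 ⊤ z).mp hz
    rw [ext_δ1 hc hρ hβ hy x, h x, neg_zero]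
  -- 2. a retraction
  obtain ⟨r, hr⟩ := LinearMap.exists_leftInverse_of_injective (S.iC ⊤).H2
    (LinearMap.ker_eq_bot.mpr hinj)
  have hr' : ∀ z, r ((S.iC ⊤).H2 z) = z := fun z => LinearMap.congr_fun hr z
  -- 3. duality
  obtain ⟨ψ, hψ⟩ := hdual (extRep hβ hy) (isSmoothRep_extRep hc hρ hβ hy) (tr ∘ₗ r)
  -- 4. `ψ (1, 0) = 1`
  have hlin : ∀ (t : k) (a : A), ψ.1 (t, a) = t * ψ.1 (1, 0) + ψ.1 (0, a) := by
    intro t a
    have h1 : ((t, a) : k × A) = t • ((1, 0) : k × A) + (0, a) := by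
      ext <;> simp
    rw [h1, map_add, map_smul, smul_eq_mul]
  have hi : LinearMap.inl k k A ∈ EHomOn ⊤ c (extRep hβ hy) := fun v _ => S.i_equiv v
  have hcomp : (⟨ψ.1 ∘ₗ LinearMap.inl k k A, EHomOn.comp_mem ψ.2 hi⟩ : EHomOn ⊤ c c) =
      ψ.1 (1, 0) • ⟨LinearMap.id, EHomOn.id_mem ⊤ c⟩ := by
    apply Subtype.ext
    apply LinearMap.ext
    intro t
    show ψ.1 (t, 0) = ψ.1 (1, 0) * t
    rw [hlin t 0]
    have : ψ.1 ((0, 0) : k × A) = 0 := map_zero ψ.1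
    rw [this, add_zero, mul_comm]
  have htrs : ∀ z : H2 L ⊤ c, tr z = ψ.1 (1, 0) * tr z := by
    intro z
    have h1 : tr z = alpha L ⊤ c tr (extRep hβ hy) ψ ((S.iC ⊤).H2 z) := by
      rw [hψ, LinearMap.comp_apply, hr']
    have h2 : mapH2 L ⊤ (extRep hβ hy) c ψ ((S.iC ⊤).H2 z) =
        mapH2 L ⊤ c c ⟨ψ.1 ∘ₗ LinearMap.inl k k A, EHomOn.comp_mem ψ.2 hi⟩ z :=
      (mapH2_comp L ψ ⟨LinearMap.inl k k A, hi⟩ z).symm
    rw [alpha_apply, h2, hcomp, map_smul, LinearMap.smul_apply, mapH2_id, map_smul,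
      smul_eq_mul] at h1
    exact h1
  have hs : ψ.1 (1, 0) = 1 := by
    obtain ⟨z, hz⟩ : ∃ z, tr z ≠ 0 := by
      by_contra hcon
      push Not at hcon
      exact htr (LinearMap.ext hcon)
    have h1 := htrs z
    exact (mul_right_cancel₀ hz ((one_mul _).trans h1)).symm
  -- 5. the functional `μ`
  obtain ⟨b₀, hb₀⟩ := hβr.2 (-(ψ.1 ∘ₗ LinearMap.inr k k A))
  have hμ : ∀ a, ψ.1 (0, a) = - β a b₀ := by
    intro a
    have := LinearMap.congr_fun hb₀ a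
    rw [LinearMap.flip_apply, LinearMap.neg_apply, LinearMap.comp_apply, LinearMap.inr_apply] at this
    rw [this, neg_neg]
  have hkey : ∀ (g : G) (a : A), β (ρ g a) (y 1 g) = β (ρ g a) (b₀ - σ g b₀) := by
    intro g a
    have h1 := ψ.2 g trivial (0, a)
    rw [extRep_apply, hlin, hs, mul_one, map_zero, zero_add, hμ, hμ, map_neg,
      ← hβ g trivial a b₀] at h1
    rw [map_sub]
    linear_combination h1
  have hy1 : ∀ g : G, y 1 g = b₀ - σ g b₀ := by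
    intro g
    apply hβr.1
    apply LinearMap.ext
    intro a
    have h1 := hkey g (ρ g⁻¹ a)
    have h2 : ρ g (ρ g⁻¹ a) = a := by
      rw [← Module.End.mul_apply, ← map_mul, mul_inv_cancel, map_one]
      rfl
    rw [h2] at h1
    exact h1
  -- 6. `y` is a coboundary
  refine (H1.mk_eq_zero_iff L ⊤ σ ⟨y, hy⟩).2 ((mem_B1_iff hy).2 ⟨-b₀, fun v _ => ?_⟩)
  rw [hy1 v, map_neg]
  abel

end Fermat.Agent.S56.GW

end
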