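/-
S56 (Taylor-Wiles primes), block GW, (N) nondegeneracy of the local cup product, part 3: transport to the relative
model `H^i Lall (⊤ ⊓ Dl v)` and the inputs of S55 (block L of `Fermat/Agent/PT`).
-/
import Fermat.Agent.S56.GW.Nondeg.Abs
import Fermat.Agent.S56.GW.Sel
import Fermat.Agent.PT.LocDual.Final

set_option autoImplicit false
set_option maxHeartbeats 400000
set_option linter.unusedSectionVars false

open ExtCitation

noncomputable section

namespace Fermat.Agent.S56.GW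

open Fermat.Agent.PT Fermat.Agent.PT.LocDual

section Transfer

variable {k : Type*} [CommRing k] {G : Type*} [Group G]
  {A B C : Type*} [AddCommGroup A] [Module k A] [AddCommGroup B] [Module k B]
  [AddCommGroup C] [Module k C]
variable {ρ : Representation k G A} {σ : Representation k G B} {τ : Representation k G C}
  {β : A →ₗ[k] B →ₗ[k] C}

theorem IsPairingOn.induced {D : Subgroup G} (hβ : IsPairingOn D ρ σ τ β) :
    IsPairingOn ⊤ (ρ.comp D.subtype) (σ.comp D.subtype) (τ.comp D.subtype) β :=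
  fun v _ a b => hβ v.1 v.2 a b

/-- The cup product commutes with the restriction of functions from `G` to `D`. -/
theorem relSubC_cupH (L : LevelSystem G) {D : Subgroup G} (hβ : IsPairingOn D ρ σ τ β)
    (x : H1 L D ρ) (y : H1 L D σ) :
    (relSubC L τ D).H2 (cupH L hβ x y) =
      cupH (L.induced D) hβ.induced ((relSubC L ρ D).H1 x) ((relSubC L σ D).H1 y) := by
  obtain ⟨x, rfl⟩ := H1.mk_surjective L D ρ x
  obtain ⟨y, rfl⟩ := H1.mk_surjective L D σ y
  rfl

end Transfer

variable {p : ℕ} [Fact p.Prime]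

/-- Duality for ALL finite smooth representations of the group `↥D` (this is the middle of the proof of
`PT.LocDual.alpha_surjective_rel`, `PT/LocDual/Abs.lean`: copy it). -/
theorem alpha_bijective_induced {G : Type*} [Group G] {E : Type*} [AddCommGroup E]
    [Module (ZMod p) E] (L : LevelSystem G) (D : Subgroup G)
    (σ : Representation (ZMod p) G (ZMod p)) (tr : H2 L D σ →ₗ[ZMod p] ZMod p)
    (G1 : Subgroup G) [G1.Normal] (hG1 : L.IsOpen G1) (hidx : ¬ p ∣ G1.index)
    (hσ : ∀ g ∈ G1, σ g = 1) (htr : Function.Bijective tr)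
    (hcor : ∀ E : Subgroup G, E ≤ D → (∃ U ∈ L, D ⊓ U ≤ E) → ∀ [Finite (CosetsIn D E)],
      Function.Bijective (coresC L σ D E).H2)
    [Module.Finite (ZMod p) E] (τ : Representation (ZMod p) ↥D E)
    (hτ : IsSmoothRep (L.induced D) τ) :
    Function.Bijective (alpha (L.induced D) ⊤ (σ.comp D.subtype) (trInd L D σ tr) τ) := by
  have hG1' : (L.induced D).IsOpen (G1.subgroupOf D) := by
    obtain ⟨U, hU, hle⟩ := hG1
    exact ⟨U.comap D.subtype, ⟨U, hU, rfl⟩, Subgroup.comap_mono hle⟩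
  have hidx' : ¬ p ∣ (G1.subgroupOf D).index := fun h =>
    hidx (h.trans (Subgroup.relIndex_dvd_index_of_normal G1 D))
  refine alpha_bijective (L.induced D) (σ.comp D.subtype) (trInd L D σ tr) (G1.subgroupOf D) hG1'
    hidx' (fun V hV hle => ?_) τ hτ
  have := finite_cosetsIn_of_isOpen hV
  have := finite_cosetsIn_map hV rfl
  obtain ⟨hED, hop⟩ := exists_level_inf_le hV rfl
  apply alpha_bijective_coind_triv (L.induced D) V hV (σ.comp D.subtype)
    (fun v hv => hσ v.1 (hle hv))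
  have hc := hcor (V.map D.subtype) hED hop
  have hr := relC_bijective_H2 L σ D (V := V) rfl
  have hs := relSub_bijective_H2 L σ D
  have hcomp : (coresC (L.induced D) (σ.comp D.subtype) ⊤ V).H2 ∘ (relC L σ D (V := V) rfl).H2 =
      (relSubC L σ D).H2 ∘ (coresC L σ D (V.map D.subtype)).H2 := by
    funext x
    exact (relC_coresC_H2 L σ D rfl x).symm
  have hcor' : Function.Bijective (coresC (L.induced D) (σ.comp D.subtype) ⊤ V).H2 := by
    have h1 : Function.Bijective
        ((coresC (L.induced D) (σ.comp D.subtype) ⊤ V).H2 ∘ (relC L σ D (V := V) rfl).H2) := by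
      rw [hcomp]
      exact hs.comp hc
    exact (Function.Bijective.of_comp_iff _ hr).1 h1
  rw [LinearMap.coe_comp]
  exact (trInd_bijective L D σ tr htr).comp hcor'

/-- A bijective linear form on `H²(D_v, μ_p)` (`Local.localCard p`, `primeLocalPlace_isFin`, `bijective_of_card_eq`;
a nonzero linear form exists because the space has `p > 1` elements: `Module.forall_dual_apply_eq_zero_iff`). -/
theorem exists_local_tr (p : ℕ) [Fact p.Prime] (v : Nat.Primes) :
    ∃ tr : H2 Lall (⊤ ⊓ Dl v) (cycRep p) →ₗ[ZMod p] ZMod p, Function.Bijective tr := by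
  obtain ⟨U₀, hU₀⟩ := Lall.nonempty'
  have hcard : Nat.card (H2 Lall (⊤ ⊓ Dl v) (cycRep p)) = p :=
    Local.localCard p ⊤ ⟨U₀, hU₀, le_top⟩ _ (primeLocalPlace_isFin v)
  have hp : p.Prime := Fact.out
  have hfin : Finite (H2 Lall (⊤ ⊓ Dl v) (cycRep p)) :=
    Nat.finite_of_card_ne_zero (by rw [hcard]; exact hp.ne_zero)
  have hnt : Nontrivial (H2 Lall (⊤ ⊓ Dl v) (cycRep p)) :=
    Finite.one_lt_card_iff_nontrivial.1 (by rw [hcard]; exact hp.one_lt)
  obtain ⟨z, hz⟩ := exists_ne (0 : H2 Lall (⊤ ⊓ Dl v) (cycRep p))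
  obtain ⟨f, hf⟩ : ∃ f : Module.Dual (ZMod p) (H2 Lall (⊤ ⊓ Dl v) (cycRep p)), f z ≠ 0 := by
    by_contra hcon
    push Not at hcon
    exact hz ((Module.forall_dual_apply_eq_zero_iff (ZMod p) z).1 hcon)
  refine ⟨f, bijective_of_card_eq hcard f ?_⟩
  intro h0
  apply hf
  rw [h0]
  rfl

variable {A B : Type} [AddCommGroup A] [Module (ZMod p) A] [AddCommGroup B] [Module (ZMod p) B]
  {ρ : Representation (ZMod p) GQ A} {σ : Representation (ZMod p) GQ B}
  {β : A →ₗ[ZMod p] B →ₗ[ZMod p] ZMod p}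

/-- **(N)** the local cup product is nondegenerate on the right.
`D := ⊤ ⊓ Dl v`.  Apply `cup_right_nondeg_abs` to the group `↥D`, `L := Lall.induced D`, `c := (cycRep p).comp D.subtype`,
`tr := trInd Lall D (cycRep p) tr₀` (`exists_local_tr`, `trInd_bijective`), `hdual` from `alpha_bijective_induced`
(inputs exactly as in `PT.LocDual.localDuality`, `PT/LocDual/Main.lean` + `localCoresStatement`, `PT/LocDual/Final.lean`),
`y' := (relSubC Lall σ D).H1 y`;  every `x'` is `(relSubC Lall ρ D).H1 x` (`relSub_bijective_H1`), `relSubC_cupH`;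
conclude with the injectivity of `(relSubC Lall σ D).H1`.  Smoothness: `isSmoothRep_comp`. -/
theorem cupLoc_right_nondeg [Module.Finite (ZMod p) A] (hρ : IsSmoothRep Lall ρ)
    (hβ : IsPairingOn ⊤ ρ σ (cycRep p) β) (hβr : Function.Bijective β.flip) (v : Nat.Primes)
    (y : H1 Lall (⊤ ⊓ Dl v) σ) (h : ∀ x : H1 Lall (⊤ ⊓ Dl v) ρ, cupLoc hβ v x y = 0) : y = 0 := by
  obtain ⟨tr₀, htr₀⟩ := exists_local_tr p v
  have hfin := primeLocalPlace_isFin v
  have hβD : IsPairingOn (⊤ ⊓ Dl v) ρ σ (cycRep p) β := hβ.mono le_top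
  have hc : IsSmoothRep Lall (cycRep p) := by
    obtain ⟨U, hU, hle⟩ := G1_isOpen p
    intro a
    exact ⟨U, hU, fun u hu => by rw [cycRep_eq_one_of_mem_G1 (hle hu)]; rfl⟩
  have htrb := trInd_bijective Lall (⊤ ⊓ Dl v) (cycRep p) tr₀ htr₀
  have htr_ne : trInd Lall (⊤ ⊓ Dl v) (cycRep p) tr₀ ≠ 0 := by
    intro h0
    obtain ⟨z, hz⟩ := htrb.2 1
    rw [h0] at hz
    exact zero_ne_one hz
  have key := cup_right_nondeg_abs (L := Lall.induced (⊤ ⊓ Dl v))
    (ρ := ρ.comp (⊤ ⊓ Dl v).subtype) (σ := σ.comp (⊤ ⊓ Dl v).subtype)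
    (c := (cycRep p).comp (⊤ ⊓ Dl v).subtype) (β := β)
    (isSmoothRep_comp hc _) (isSmoothRep_comp hρ _)
    (trInd Lall (⊤ ⊓ Dl v) (cycRep p) tr₀) htr_ne
    (fun τ hτ => (alpha_bijective_induced Lall (⊤ ⊓ Dl v) (cycRep p) tr₀ (G1 p) (G1_isOpen p)
      (G1_index p) (fun g hg => cycRep_eq_one_of_mem_G1 hg) htr₀
      (fun E hE hop => localCoresStatement p _ hfin E hE hop) τ hτ).2)
    hβD.induced hβr ((relSubC Lall σ (⊤ ⊓ Dl v)).H1 y) (by
      intro x'
      obtain ⟨x, rfl⟩ := (relSub_bijective_H1 Lall ρ (⊤ ⊓ Dl v)).2 x'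
      rw [← relSubC_cupH Lall hβD x y, show cupH Lall hβD x y = 0 from h x, map_zero])
  exact (relSub_bijective_H1 Lall σ (⊤ ⊓ Dl v)).1 (key.trans (map_zero _).symm)

/-- `H¹(D_v,ρ)^⊥ = 0`. -/
theorem perp_top_eq_bot [Module.Finite (ZMod p) A] (hρ : IsSmoothRep Lall ρ)
    (hβ : IsPairingOn ⊤ ρ σ (cycRep p) β) (hβr : Function.Bijective β.flip) (𝓛 : LocCond ρ)
    (v : Nat.Primes) (h𝓛 : 𝓛 v = ⊤) : perp hβ 𝓛 v = ⊥ := by
  rw [eq_bot_iff]
  intro y hy
  rw [mem_perp] at hy
  exact cupLoc_right_nondeg hρ hβ hβr v y fun x => hy x (by rw [h𝓛]; trivial)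

end Fermat.Agent.S56.GW

end
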